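/-
NODAL, layer KUM (architect helper155): from the abstract core (`Nodal/Tor.lean`) to a statement
which does not mention the cover `E` any more.

`KSec A F x n u k` : the `f : F` such that `f * u ^ (1/n)` is a section of `O(k ∞)` on the cover.
`Riem A F x n u`   : for all large `k` there are `rank H⁰(O_F(k ∞))` linearly independent elements in
                     `KSec A F x n u k` (Riemann's theorem: `deg (div u / n) = 0`).
-/
import Fermat.Agent.Nodal.Defs

set_option autoImplicit false

noncomputable section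

namespace Fermat.Agent.Nodal

open Fermat.Agent.KLB

/-- The sections of `O(div u / n + k ∞)`, in the language of the two charts. -/
def KSec (A : Type*) {P : Type*} (F : Type*) [CommRing A] [Field P] [Field F] [Algebra A P]
    [Algebra P F] (x : P) (n : ℕ) (u : F) (k : ℕ) : Set F :=
  {f | IsIntegral (Algebra.adjoin A {x}) (f ^ n * u) ∧
    IsIntegral (Algebra.adjoin A {x⁻¹}) (((algebraMap P F x)⁻¹ ^ k * f) ^ n * u)}

theorem mem_KSec {A P F : Type*} [CommRing A] [Field P] [Field F] [Algebra A P]
    [Algebra P F] {x : P} {n : ℕ} {u : F} {k : ℕ} {f : F} :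
    f ∈ KSec A F x n u k ↔ IsIntegral (Algebra.adjoin A {x}) (f ^ n * u) ∧
      IsIntegral (Algebra.adjoin A {x⁻¹}) (((algebraMap P F x)⁻¹ ^ k * f) ^ n * u) := Iff.rfl

/-- Riemann's theorem for the divisor `div u / n` of degree zero. -/
def Riem (A : Type*) {P : Type*} (F : Type*) [CommRing A] [Field P] [Field F] [Algebra A P]
    [Algebra P F] [Algebra A F] [IsScalarTower A P F] (x : P) (n : ℕ) (u : F) : Prop :=
  ∃ k₀ : ℕ, ∀ k, k₀ ≤ k → ∃ b : Fin (Module.finrank A (Sec A F x k)) → F,
    LinearIndependent A b ∧ ∀ i, b i ∈ KSec A F x n u k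

/-- The `n`-th roots in `E` of the elements of `U`. -/
def rootSet {F : Type*} (E : Type*) [Field F] [Field E] [Algebra F E] (n : ℕ) (U : Finset F) :
    Set E := {y | ∃ u ∈ U, y ^ n = algebraMap F E u}

/-- The polynomial `∏ (X ^ n - u)`. -/
def kumPoly {F : Type*} [Field F] (n : ℕ) (U : Finset F) : Polynomial F :=
  ∏ u ∈ U, (Polynomial.X ^ n - Polynomial.C u)

end Fermat.Agent.Nodal

end
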