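/-
NODAL, layer KUM (architect helper155): K1, K2, K3: extension of an automorphism of `F` to the cover.
-/
import Fermat.Agent.Nodal.Kum.Defs
import Fermat.Agent.Nodal.SplitOfFree.Trans

set_option autoImplicit false

noncomputable section

namespace Fermat.Agent.Nodal

open Polynomial

/-- a splitting field maps to every field in which the polynomial splits. -/
theorem exists_ringEquiv_extension_two {F E E' : Type*} [Field F] [Field E] [Field E']
    [Algebra F E] [Algebra F E'] (f : F[X]) [IsSplittingField F E f]
    (hs : (f.map (algebraMap F E')).Splits) :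
    ∃ g : E →+* E', ∀ a : F, g (algebraMap F E a) = algebraMap F E' a :=
  ⟨(IsSplittingField.lift E f hs).toRingHom, (IsSplittingField.lift E f hs).commutes⟩

/-- extension of a ring endomorphism of `F` fixing `f` to an endomorphism of the splitting field. -/
theorem exists_ringEquiv_extension_hom {F E : Type*} [Field F] [Field E] [Algebra F E] (f : F[X])
    [IsSplittingField F E f] (g₀ : F →+* F) (hf : f.map g₀ = f) :
    ∃ g : E →+* E, ∀ a : F, g (algebraMap F E a) = algebraMap F E (g₀ a) := by
  have hs : (f.map ((algebraMap F E).comp g₀)).Splits := by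
    rw [← Polynomial.map_map, hf]
    exact IsSplittingField.splits E f
  exact @exists_ringEquiv_extension_two F E E _ _ _ _ ((algebraMap F E).comp g₀).toAlgebra f _ hs

/-- K1 (Mathlib only).  A ring automorphism of `F` which fixes the polynomial `f` extends to the
splitting field of `f`.  (Second `F`-algebra structure `(algebraMap F E).comp g₀` on `E`; `E` is a
splitting field of `f` for both; `IsSplittingField.algEquiv`.) -/
theorem exists_ringEquiv_extension {F E : Type*} [Field F] [Field E] [Algebra F E] (f : F[X])
    [IsSplittingField F E f] (g₀ : F ≃+* F) (hf : f.map (g₀ : F →+* F) = f) :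
    ∃ g : E ≃+* E, ∀ a : F, g (algebraMap F E a) = algebraMap F E (g₀ a) := by
  have hf' : f.map (g₀.symm : F →+* F) = f := by
    conv_lhs => rw [← hf]
    rw [Polynomial.map_map]
    have h1 : (g₀.symm : F →+* F).comp (g₀ : F →+* F) = RingHom.id F := by
      ext a
      simp
    rw [h1, Polynomial.map_id]
  obtain ⟨φ, hφ⟩ := exists_ringEquiv_extension_hom (E := E) f (g₀ : F →+* F) hf
  obtain ⟨ψ, hψ⟩ := exists_ringEquiv_extension_hom (E := E) f (g₀.symm : F →+* F) hf'
  have hfd : FiniteDimensional F E := IsSplittingField.finiteDimensional E f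
  let χ : E →ₐ[F] E :=
    { φ.comp ψ with
      commutes' := fun a => by
        show φ (ψ (algebraMap F E a)) = algebraMap F E a
        rw [hψ, hφ]
        simp }
  have hχ : Function.Bijective χ := Algebra.IsAlgebraic.algHom_bijective χ
  have hsurj : Function.Surjective φ := by
    intro y
    obtain ⟨z, hz⟩ := hχ.2 y
    exact ⟨ψ z, hz⟩
  exact ⟨RingEquiv.ofBijective φ ⟨φ.injective, hsurj⟩, fun a => hφ a⟩

/-- K1'. -/
theorem kumPoly_map {F : Type*} [Field F] (n : ℕ) (U : Finset F) (g₀ : F ≃+* F)
    (hU : ∀ u ∈ U, g₀ u ∈ U) : (kumPoly n U).map (g₀ : F →+* F) = kumPoly n U := by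
  classical
  have himg : U.image g₀ = U := by
    apply Finset.eq_of_subset_of_card_le
    · intro y hy
      obtain ⟨u, hu, rfl⟩ := Finset.mem_image.1 hy
      exact hU u hu
    · rw [Finset.card_image_of_injective _ g₀.injective]
  unfold kumPoly
  rw [Polynomial.map_prod]
  conv_rhs => rw [← himg]
  rw [Finset.prod_image (fun a _ b _ h => g₀.injective h)]
  refine Finset.prod_congr rfl fun u _ => ?_
  simp

/-- K2.  Composing with an element of the Galois group we may assume that the extension fixes a
given valuation subring `W₀` (`SplitOfFree.exists_comap_eq`). -/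
theorem exists_extension_fixing {F E : Type*} [Field F] [Field E] [Algebra F E]
    [FiniteDimensional F E] [IsGalois F E] (g₀ : F ≃+* F) (g' : E ≃+* E)
    (hg' : ∀ a : F, g' (algebraMap F E a) = algebraMap F E (g₀ a))
    (V : ValuationSubring F) (hV : V.comap (g₀ : F →+* F) = V)
    (W₀ : ValuationSubring E) (hW₀ : W₀.comap (algebraMap F E) = V) :
    ∃ g : E ≃+* E, (∀ a : F, g (algebraMap F E a) = algebraMap F E (g₀ a)) ∧
      W₀.comap (g : E →+* E) = W₀ := by
  have hW₁ : (W₀.comap (g' : E →+* E)).comap (algebraMap F E) = V := by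
    ext a
    rw [ValuationSubring.mem_comap, ValuationSubring.mem_comap]
    have h1 : (g' : E →+* E) (algebraMap F E a) = algebraMap F E (g₀ a) := hg' a
    rw [h1, ← ValuationSubring.mem_comap, hW₀]
    conv_rhs => rw [← hV]
    rw [ValuationSubring.mem_comap]
    rfl
  obtain ⟨γ, hγ⟩ := SplitOfFree.exists_comap_eq V (W₀.comap (g' : E →+* E)) W₀ hW₁ hW₀
  refine ⟨(γ : E ≃+* E).trans g', fun a => ?_, ?_⟩
  · show g' (γ (algebraMap F E a)) = _
    rw [γ.commutes, hg']
  · conv_rhs => rw [hγ]
    ext y
    rw [ValuationSubring.mem_comap, ValuationSubring.mem_comap, ValuationSubring.mem_comap]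
    rfl

/-- a ring endomorphism of `E` which maps `A` into `A` and fixes `x` maps `A[x]` into `A[x]`. -/
theorem isIntegral_adjoin_map_iff_aux_mem {A P E : Type*} [CommRing A] [Field P] [Field E]
    [Algebra A P] [Algebra P E] [Algebra A E] [IsScalarTower A P E] (x : P) (g : E →+* E)
    (hA : ∀ a : A, ∃ a' : A, g (algebraMap A E a) = algebraMap A E a')
    (hx : g (algebraMap P E x) = algebraMap P E x) (r : Algebra.adjoin A {x}) :
    ∃ r' : Algebra.adjoin A {x}, g (algebraMap (Algebra.adjoin A {x}) E r) =
      algebraMap (Algebra.adjoin A {x}) E r' := by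
  obtain ⟨y, hy⟩ := r
  show ∃ r' : Algebra.adjoin A {x}, g (algebraMap P E y) = algebraMap P E (r' : P)
  induction hy using Algebra.adjoin_induction with
  | mem y hy =>
    rw [Set.mem_singleton_iff] at hy
    subst hy
    exact ⟨⟨y, Algebra.subset_adjoin (Set.mem_singleton y)⟩, hx⟩
  | algebraMap a =>
    obtain ⟨a', ha'⟩ := hA a
    refine ⟨algebraMap A _ a', ?_⟩
    rw [← IsScalarTower.algebraMap_apply A P E, ha', IsScalarTower.algebraMap_apply A P E]
    rfl
  | add y z _ _ hy hz =>
    obtain ⟨y', hy'⟩ := hy
    obtain ⟨z', hz'⟩ := hz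
    exact ⟨y' + z', by rw [map_add, map_add, hy', hz']; simp⟩
  | mul y z _ _ hy hz =>
    obtain ⟨y', hy'⟩ := hy
    obtain ⟨z', hz'⟩ := hz
    exact ⟨y' * z', by rw [map_mul, map_mul, hy', hz']; simp⟩

/-- one direction of K3, for ring endomorphisms. -/
theorem isIntegral_adjoin_map_iff_aux {A P E : Type*} [CommRing A] [Field P] [Field E]
    [Algebra A P] [Algebra P E] [Algebra A E] [IsScalarTower A P E] (x : P) (g : E →+* E)
    (hA : ∀ a : A, ∃ a' : A, g (algebraMap A E a) = algebraMap A E a')
    (hx : g (algebraMap P E x) = algebraMap P E x) {c : E}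
    (hc : IsIntegral (Algebra.adjoin A {x}) c) : IsIntegral (Algebra.adjoin A {x}) (g c) := by
  choose φ hφ using isIntegral_adjoin_map_iff_aux_mem x g hA hx
  have inj : Function.Injective (algebraMap (Algebra.adjoin A {x}) E) :=
    (algebraMap P E).injective.comp Subtype.val_injective
  let φhom : Algebra.adjoin A {x} →+* Algebra.adjoin A {x} :=
    { toFun := φ
      map_one' := inj (by rw [← hφ, map_one, map_one])
      map_mul' := fun a b => inj (by rw [← hφ, map_mul, map_mul, map_mul, hφ, hφ])
      map_zero' := inj (by rw [← hφ, map_zero, map_zero])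
      map_add' := fun a b => inj (by rw [← hφ, map_add, map_add, map_add, hφ, hφ]) }
  exact IsIntegral.map_of_comp_eq φhom g (RingHom.ext fun r => (hφ r).symm) hc

/-- K3.  An automorphism which maps `A` onto `A` and fixes `x` preserves the chart `x`. -/
theorem isIntegral_adjoin_map_iff {A P E : Type*} [CommRing A] [Field P] [Field E] [Algebra A P]
    [Algebra P E] [Algebra A E] [IsScalarTower A P E] (x : P) (g : E ≃+* E)
    (hA : ∀ a : A, ∃ a' : A, g (algebraMap A E a) = algebraMap A E a')
    (hA' : ∀ a : A, ∃ a' : A, g (algebraMap A E a') = algebraMap A E a)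
    (hx : g (algebraMap P E x) = algebraMap P E x) (c : E) :
    IsIntegral (Algebra.adjoin A {x}) c ↔ IsIntegral (Algebra.adjoin A {x}) (g c) := by
  constructor
  · intro hc
    exact isIntegral_adjoin_map_iff_aux x (g : E →+* E) hA hx hc
  · intro hc
    have h := isIntegral_adjoin_map_iff_aux x (g.symm : E →+* E)
      (fun a => by
        obtain ⟨a', ha'⟩ := hA' a
        exact ⟨a', by
          show g.symm (algebraMap A E a) = algebraMap A E a'
          rw [← ha', RingEquiv.symm_apply_apply]⟩)
      (by
        show g.symm (algebraMap P E x) = algebraMap P E x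
        conv_lhs => rw [← hx]
        exact RingEquiv.symm_apply_apply g _) hc
    have h2 : (g.symm : E →+* E) (g c) = c := RingEquiv.symm_apply_apply g c
    rwa [h2] at h

end Fermat.Agent.Nodal

end
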