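/-
NODAL, layer KUM (architect helper155): K4, K5: the decomposition group of `W₀` is trivial.
-/
import Fermat.Agent.Nodal.Kum.Defs

set_option autoImplicit false

noncomputable section

namespace Fermat.Agent.Nodal

variable {A F E : Type*} [CommRing A] [IsDomain A] [Field F] [Field E] [Algebra A E] [Algebra F E]
  [Algebra A F] [IsScalarTower A F E]

theorem free_of_tame_eq_one_of_fix {n : ℕ} {U : Finset F}
    (hgen : IntermediateField.adjoin F (rootSet E n U) = ⊤)
    (γ : E ≃ₐ[F] E) (h : ∀ y ∈ rootSet E n U, γ y = y) : γ = 1 := by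
  ext x
  have hx : x ∈ IntermediateField.adjoin F (rootSet E n U) := by rw [hgen]; trivial
  rw [AlgEquiv.one_apply]
  induction hx using IntermediateField.adjoin_induction with
  | mem y hy => exact h y hy
  | algebraMap c => exact γ.commutes c
  | add a b _ _ ha hb => rw [map_add, ha, hb]
  | inv a _ ha => rw [map_inv₀, ha]
  | mul a b _ _ ha hb => rw [map_mul, ha, hb]

theorem free_of_tame_isUnit_sub_one {n : ℕ} (hn : IsUnit (n : A)) {w : A} (hw : w ^ n = 1)
    (hw1 : w ≠ 1) : IsUnit (w - 1) := by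
  have h0 : ∑ i ∈ Finset.range n, w ^ i = 0 := by
    have h := geom_sum_mul w n
    rw [hw, sub_self] at h
    exact (mul_eq_zero.1 h).resolve_right (sub_ne_zero.2 hw1)
  have h1 : ∑ i ∈ Finset.range n, (w ^ i - 1) = -(n : A) := by
    rw [Finset.sum_sub_distrib, h0]
    simp
  have h2 : w - 1 ∣ -(n : A) := by
    rw [← h1]
    refine Finset.dvd_sum fun i _ => ?_
    simpa using sub_dvd_pow_sub_pow w 1 i
  exact isUnit_of_dvd_unit h2 hn.neg

theorem free_of_tame_val_eq_one {W₀ : ValuationSubring E} {n : ℕ} (hn0 : n ≠ 0) {y : E}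
    (h : W₀.valuation y ^ n = 1) : W₀.valuation y = 1 := by
  rcases lt_trichotomy (W₀.valuation y) 1 with h1 | h1 | h1
  · exact absurd h (pow_lt_one₀ zero_le' h1 hn0).ne
  · exact h1
  · exact absurd h (one_lt_pow₀ h1 hn0).ne'

/-- K4 (tame case: `n` invertible in `A`).  If `u ≡ 1` at `W₀` for all `u ∈ U` then no nontrivial
element of `Gal (F(U^(1/n)) / F)` fixes `W₀`.
Proof: for `y ^ n = u`: `∏ (y - ζ ^ i) = u - 1`, so `y - ζ ^ i ∈ m` for some `i`; `γ y = ζ ^ j y`;
`γ (y - ζ ^ i) - (y - ζ ^ i) = (ζ ^ j - 1) y ∈ m`; `ζ ^ j - 1` divides `n` if it is nonzero. -/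
theorem free_of_tame (hinj : Function.Injective (algebraMap A E)) (W₀ : ValuationSubring E)
    (hAW : ∀ a : A, algebraMap A E a ∈ W₀)
    (n : ℕ) (hn : IsUnit (n : A)) (ζ : A) (hζ : IsPrimitiveRoot ζ n) (U : Finset F)
    (hU : ∀ u ∈ U, algebraMap F E u - 1 ∈ W₀.nonunits)
    (hgen : IntermediateField.adjoin F (rootSet E n U) = ⊤)
    (γ : E ≃ₐ[F] E) (hγ : W₀.comap (γ : E →+* E) = W₀) : γ = 1 := by
  have hn0 : n ≠ 0 := by
    rintro rfl
    rw [Nat.cast_zero] at hn
    exact not_isUnit_zero hn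
  have hnz : NeZero n := ⟨hn0⟩
  have hz : IsPrimitiveRoot (algebraMap A E ζ) n := hζ.map_of_injective hinj
  have hγA : ∀ a : A, γ (algebraMap A E a) = algebraMap A E a := by
    intro a
    rw [IsScalarTower.algebraMap_apply A F E, γ.commutes]
  -- `γ` preserves the valuation being `< 1`
  have hγmem : ∀ a : E, γ a ∈ W₀ ↔ a ∈ W₀ := by
    intro a
    conv_rhs => rw [← hγ]
    rfl
  have hγnon : ∀ a : E, a ∈ W₀.nonunits → γ a ∈ W₀.nonunits := by
    intro a ha
    rw [ValuationSubring.mem_nonunits_iff] at ha ⊢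
    by_contra hcon
    rw [not_lt] at hcon
    have ha0 : a ≠ 0 := by
      rintro rfl
      rw [map_zero, map_zero] at hcon
      exact absurd hcon (not_le.2 zero_lt_one)
    have h1 : (γ a)⁻¹ ∈ W₀ := by
      rw [← ValuationSubring.valuation_le_one_iff, map_inv₀]
      exact inv_le_one_of_one_le₀ hcon
    rw [← map_inv₀, hγmem, ← ValuationSubring.valuation_le_one_iff, map_inv₀] at h1
    have h2 : W₀.valuation a ≠ 0 := (Valuation.ne_zero_iff _).2 ha0
    have h3 : 1 ≤ W₀.valuation a := by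
      rwa [inv_le_one₀ (zero_lt_iff.2 h2)] at h1
    exact absurd ha (not_lt.2 h3)
  refine free_of_tame_eq_one_of_fix hgen γ ?_
  rintro y ⟨u, hu, hy⟩
  have hu1 : W₀.valuation (algebraMap F E u - 1) < 1 :=
    (ValuationSubring.mem_nonunits_iff _).1 (hU u hu)
  have hvu : W₀.valuation (algebraMap F E u) = 1 := by
    have := Valuation.map_one_add_of_lt (v := W₀.valuation) hu1
    rwa [add_sub_cancel] at this
  have hvy : W₀.valuation y = 1 := by
    apply free_of_tame_val_eq_one hn0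
    rw [← map_pow, hy, hvu]
  have hy0 : y ≠ 0 := by
    rintro rfl
    rw [map_zero] at hvy
    exact zero_ne_one hvy
  -- some `y - ζ'` is a nonunit
  have hprod := hz.pow_sub_pow_eq_prod_sub_mul y 1 (Nat.pos_of_ne_zero hn0)
  rw [one_pow, hy] at hprod
  have hroot : ∀ η ∈ Polynomial.nthRootsFinset n (1 : E), ∃ a : A, η = algebraMap A E a := by
    intro η hη
    rw [Polynomial.mem_nthRootsFinset (Nat.pos_of_ne_zero hn0)] at hη
    obtain ⟨i, _, rfl⟩ := hz.eq_pow_of_pow_eq_one hη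
    exact ⟨ζ ^ i, by rw [map_pow]⟩
  obtain ⟨η, hη, hηy⟩ : ∃ η ∈ Polynomial.nthRootsFinset n (1 : E),
      W₀.valuation (y - η * 1) < 1 := by
    by_contra hcon
    push Not at hcon
    have hall : ∀ η ∈ Polynomial.nthRootsFinset n (1 : E), W₀.valuation (y - η * 1) = 1 := by
      intro η hη
      refine le_antisymm ?_ (hcon η hη)
      rw [ValuationSubring.valuation_le_one_iff]
      obtain ⟨a, rfl⟩ := hroot η hη
      rw [mul_one]
      exact sub_mem ((ValuationSubring.valuation_le_one_iff _ _).1 hvy.le) (hAW a)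
    rw [hprod, map_prod, Finset.prod_congr rfl hall, Finset.prod_const_one] at hu1
    exact lt_irrefl _ hu1
  rw [mul_one] at hηy
  obtain ⟨a, rfl⟩ := hroot η hη
  -- `γ y = t y` with `t ^ n = 1`
  have ht : (γ y / y) ^ n = 1 := by
    rw [div_pow, ← map_pow, hy, γ.commutes, div_self]
    rw [← hy]
    exact pow_ne_zero _ hy0
  obtain ⟨j, _, hj⟩ := hz.eq_pow_of_pow_eq_one ht
  have hγy : γ y = algebraMap A E (ζ ^ j) * y := by
    rw [map_pow, hj, div_mul_cancel₀ _ hy0]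
  by_cases hw1 : ζ ^ j = 1
  · rw [hγy, hw1, map_one, one_mul]
  · exfalso
    have hwn : (ζ ^ j) ^ n = 1 := by rw [← pow_mul, mul_comm, pow_mul, hζ.pow_eq_one, one_pow]
    obtain ⟨b, hb⟩ := (free_of_tame_isUnit_sub_one hn hwn hw1).exists_right_inv
    have h1 : W₀.valuation (γ (y - algebraMap A E a)) < 1 :=
      (ValuationSubring.mem_nonunits_iff _).1 (hγnon _ ((ValuationSubring.mem_nonunits_iff _).2 hηy))
    rw [map_sub, hγA, hγy] at h1
    have h2 : W₀.valuation (algebraMap A E (ζ ^ j - 1) * y) < 1 := by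
      have he : algebraMap A E (ζ ^ j - 1) * y
          = (algebraMap A E (ζ ^ j) * y - algebraMap A E a) - (y - algebraMap A E a) := by
        rw [map_sub, map_one]; ring
      rw [he]
      exact Valuation.map_sub_lt _ h1 hηy
    rw [map_mul, hvy, mul_one] at h2
    have h3 : W₀.valuation (algebraMap A E b) ≤ 1 :=
      (ValuationSubring.valuation_le_one_iff _ _).2 (hAW b)
    have h4 : W₀.valuation (algebraMap A E (ζ ^ j - 1)) * W₀.valuation (algebraMap A E b) = 1 := by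
      rw [← map_mul, ← map_mul, hb, map_one, map_one]
    have h5 : W₀.valuation (algebraMap A E (ζ ^ j - 1)) * W₀.valuation (algebraMap A E b) < 1 :=
      mul_lt_one_of_lt_of_le h2 h3
    exact absurd h4 h5.ne

/-- `γ` preserves the maximal ideal of `W₀`. -/
theorem free_of_deep_map_nonunits (W₀ : ValuationSubring E) (γ : E ≃ₐ[F] E)
    (hγ : W₀.comap (γ : E →+* E) = W₀) {x : E} (hx : x ∈ W₀.nonunits) : γ x ∈ W₀.nonunits := by
  have hmem : ∀ x : E, γ x ∈ W₀ ↔ x ∈ W₀ := fun x => by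
    conv_rhs => rw [← hγ]
    exact Iff.rfl
  rcases eq_or_ne x 0 with rfl | hx0
  · rwa [map_zero]
  have hγx0 : γ x ≠ 0 := (map_ne_zero_iff _ γ.injective).2 hx0
  rw [ValuationSubring.mem_nonunits_iff] at hx ⊢
  by_contra h
  rw [not_lt] at h
  have h1 : (γ x)⁻¹ ∈ W₀ := by
    rw [← W₀.valuation_le_one_iff, map_inv₀]
    exact inv_le_one_of_one_le₀ h
  rw [← map_inv₀, hmem, ← W₀.valuation_le_one_iff, map_inv₀] at h1
  have h2 : W₀.valuation x ≠ 0 := (W₀.valuation.ne_zero_iff).mpr hx0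
  exact absurd hx (not_lt.mpr ((inv_le_one₀ (zero_lt_iff.mpr h2)).mp h1))

/-- `γ` fixes every `p`-th root of an element `u ≡ 1 mod (ζ - 1) ^ p m`. -/
theorem free_of_deep_fix (hinj : Function.Injective (algebraMap A E)) (W₀ : ValuationSubring E)
    (hAW : ∀ a : A, algebraMap A E a ∈ W₀)
    (p : ℕ) (hp : p.Prime) (ζ : A) (hζ : IsPrimitiveRoot ζ p)
    (γ : E ≃ₐ[F] E) (hγ : W₀.comap (γ : E →+* E) = W₀) (y w : E) (u : F)
    (hy : y ^ p = algebraMap F E u) (hw : w ∈ W₀.nonunits)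
    (hu : algebraMap F E u - 1 = algebraMap A E (ζ - 1) ^ p * w) : γ y = y := by
  have : NeZero p := ⟨hp.ne_zero⟩
  obtain ⟨l, hl⟩ : ∃ l : E, l = algebraMap A E (ζ - 1) := ⟨_, rfl⟩
  obtain ⟨z, hz⟩ : ∃ z : E, z = algebraMap A E ζ := ⟨_, rfl⟩
  rw [← hl] at hu
  have hl0 : l ≠ 0 := by
    rw [hl, Ne, map_eq_zero_iff _ hinj, sub_eq_zero]
    exact hζ.ne_one hp.one_lt
  have hzprim : IsPrimitiveRoot z p := hz ▸ hζ.map_of_injective hinj
  have hγA : ∀ a : A, γ (algebraMap A E a) = algebraMap A E a := fun a => by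
    rw [IsScalarTower.algebraMap_apply A F E, γ.commutes]
  have hwv : W₀.valuation w < 1 := W₀.mem_nonunits_iff.1 hw
  have hlv : W₀.valuation l ≤ 1 := (W₀.valuation_le_one_iff _).2 (hl ▸ hAW _)
  have hlv0 : 0 < W₀.valuation l := zero_lt_iff.2 ((W₀.valuation.ne_zero_iff).2 hl0)
  have hlt1 : W₀.valuation l ^ p * W₀.valuation w < W₀.valuation l ^ p := by
    calc W₀.valuation l ^ p * W₀.valuation w < W₀.valuation l ^ p * 1 :=
          mul_lt_mul_of_pos_left hwv (pow_pos hlv0 p)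
      _ = _ := mul_one _
  have hy0 : y ≠ 0 := by
    rintro rfl
    rw [zero_pow hp.ne_zero] at hy
    have h1 : W₀.valuation (l ^ p * w) = 1 := by
      rw [← hu, ← hy, zero_sub, Valuation.map_neg, map_one]
    rw [map_mul, map_pow] at h1
    exact absurd h1 (hlt1.trans_le (pow_le_one' hlv p)).ne
  -- `γ y = z ^ i * y`
  have h1 : (γ y / y) ^ p = 1 := by
    rw [div_pow, ← map_pow, hy, γ.commutes, div_self]
    rw [← hy]
    exact pow_ne_zero _ hy0
  obtain ⟨i, hip, hi⟩ := hzprim.eq_pow_of_pow_eq_one h1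
  have hγy : γ y = z ^ i * y := by
    rw [hi]
    field_simp
  -- one of the `(ξ y - 1) / l` lies in the maximal ideal
  have hprod : (1 : E) ^ p - y ^ p = ∏ ξ ∈ Polynomial.nthRootsFinset p (1 : E), (1 - ξ * y) :=
    hzprim.pow_sub_pow_eq_prod_sub_mul 1 y hp.pos
  have hlt : ∏ ξ ∈ Polynomial.nthRootsFinset p (1 : E), W₀.valuation (1 - ξ * y) <
      ∏ _ξ ∈ Polynomial.nthRootsFinset p (1 : E), W₀.valuation l := by
    rw [← map_prod, ← hprod, Finset.prod_const, hzprim.card_nthRootsFinset, one_pow, hy]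
    have h2 : (1 : E) - algebraMap F E u = -(l ^ p * w) := by
      rw [← hu]
      ring
    rw [h2, Valuation.map_neg, map_mul, map_pow]
    exact hlt1
  obtain ⟨ξ, hξ, hξlt⟩ := Finset.exists_lt_of_prod_lt' hlt
  obtain ⟨j, -, hj⟩ := hzprim.eq_pow_of_pow_eq_one ((Polynomial.mem_nthRootsFinset hp.pos 1).1 hξ)
  have hγz : γ z = z := hz ▸ hγA ζ
  have hγl : γ l = l := hl ▸ hγA _
  have hγξ : γ ξ = ξ := by rw [← hj, map_pow, hγz]
  obtain ⟨Y, hY⟩ : ∃ Y : E, Y = (ξ * y - 1) / l := ⟨_, rfl⟩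
  have hYm : Y ∈ W₀.nonunits := by
    rw [W₀.mem_nonunits_iff, hY, map_div₀, div_lt_one₀ hlv0, Valuation.map_sub_swap]
    exact hξlt
  have hγYm : γ Y ∈ W₀.nonunits := free_of_deep_map_nonunits W₀ γ hγ hYm
  have hγY : γ Y = (ξ * (z ^ i * y) - 1) / l := by
    rw [hY, map_div₀, map_sub, map_mul, map_one, hγξ, hγy, hγl]
  -- the cyclotomic unit
  have hc : algebraMap A E (∑ k ∈ Finset.range i, ζ ^ k) * l = z ^ i - 1 := by
    rw [hl, hz, ← map_mul, geom_sum_mul, map_sub, map_pow, map_one]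
  have hc' : algebraMap A E (∑ k ∈ Finset.range i, ζ ^ k) = γ Y - z ^ i * Y := by
    rw [hγY, hY, eq_comm]
    have : (ξ * (z ^ i * y) - 1) / l - z ^ i * ((ξ * y - 1) / l) = (z ^ i - 1) / l := by
      field_simp
      ring
    rw [this, ← hc, mul_div_assoc, div_self hl0, mul_one]
  have hzv : W₀.valuation (z ^ i) ≤ 1 := by
    rw [W₀.valuation_le_one_iff, hz, ← map_pow]
    exact hAW _
  have hcv : W₀.valuation (algebraMap A E (∑ k ∈ Finset.range i, ζ ^ k)) < 1 := by
    rw [hc']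
    refine Valuation.map_sub_lt _ (W₀.mem_nonunits_iff.1 hγYm) ?_
    rw [map_mul, mul_comm]
    exact mul_lt_one_of_lt_of_le (W₀.mem_nonunits_iff.1 hYm) hzv
  rcases Nat.eq_zero_or_pos i with rfl | hi0
  · rw [hγy, pow_zero, one_mul]
  · exfalso
    have hunit : IsUnit (∑ k ∈ Finset.range i, ζ ^ k) :=
      hζ.geom_sum_isUnit hp.two_le (Nat.coprime_of_lt_prime hi0.ne' hip hp).symm
    obtain ⟨d, hd⟩ := hunit.exists_right_inv
    have h3 : W₀.valuation (algebraMap A E (∑ k ∈ Finset.range i, ζ ^ k)) *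
        W₀.valuation (algebraMap A E d) = 1 := by
      rw [← map_mul, ← map_mul, hd, map_one, map_one]
    exact absurd h3 (mul_lt_one_of_lt_of_le hcv ((W₀.valuation_le_one_iff _).2 (hAW d))).ne

/-- K5 (wild case `n = p`, deep congruence `u ≡ 1 mod (ζ - 1) ^ p m`).
Proof: `λ = ζ - 1`, `Y_j = (ζ ^ j y - 1) / λ` (`j < p`) are the roots of the monic polynomial
`((1 + λ T) ^ p - u) / λ ^ p`, whose coefficients lie in `W₀` (`p / λ ^ (p - 1) ∈ A`) and whose
constant term is `- z ∈ m`; so (after replacing `y` by `ζ ^ j y`) `Y = (y - 1) / λ ∈ m`.  If `γ y = ζ ^ i y`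
then `γ Y = ζ ^ i Y + (ζ ^ i - 1) / λ`, and `(ζ ^ i - 1) / λ` is a unit of `A` if `p ∤ i`. -/
theorem free_of_deep (hinj : Function.Injective (algebraMap A E)) (W₀ : ValuationSubring E)
    (hAW : ∀ a : A, algebraMap A E a ∈ W₀)
    (p : ℕ) (hp : p.Prime) (ζ : A) (hζ : IsPrimitiveRoot ζ p) (U : Finset F)
    (hU : ∀ u ∈ U, ∃ z ∈ W₀.nonunits, algebraMap F E u - 1 = algebraMap A E (ζ - 1) ^ p * z)
    (hgen : IntermediateField.adjoin F (rootSet E p U) = ⊤)
    (γ : E ≃ₐ[F] E) (hγ : W₀.comap (γ : E →+* E) = W₀) : γ = 1 := by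
  refine free_of_tame_eq_one_of_fix hgen γ ?_
  rintro y ⟨u, huU, hy⟩
  obtain ⟨w, hw, hu⟩ := hU u huU
  exact free_of_deep_fix hinj W₀ hAW p hp ζ hζ γ hγ y w u hy hw hu

end Fermat.Agent.Nodal

end
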