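/-
NODAL, layer KUM (architect helper155): K7, K8: the rank inequality from Riemann's theorem.
-/
import Fermat.Agent.Nodal.Kum.Defs
import Fermat.Agent.Nodal.RankFinite

set_option autoImplicit false

noncomputable section

namespace Fermat.Agent.Nodal

open Fermat.Agent.KLB

/-- K7 (Mathlib only).  `E = F(U^(1/n))` has an `F`-basis of elements whose `n`-th power is a monomial
in the elements of `U`.  (The set of such elements is a submonoid, its `F`-span is a subalgebra
containing the generators, `E / F` is algebraic; extract a basis from a spanning set.) -/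
theorem exists_monomial_basis {F E : Type*} [Field F] [Field E] [Algebra F E]
    [FiniteDimensional F E] (n : ℕ) (U : Finset F)
    (hgen : IntermediateField.adjoin F (rootSet E n U) = ⊤) :
    ∃ (y : Fin (Module.finrank F E) → E) (e : Fin (Module.finrank F E) → F → ℕ),
      LinearIndependent F y ∧ ∀ j, y j ^ n = algebraMap F E (∏ u ∈ U, u ^ e j u) := by
  classical
  let S : Submonoid E :=
    { carrier := {y | ∃ e : F → ℕ, y ^ n = algebraMap F E (∏ u ∈ U, u ^ e u)}
      one_mem' := ⟨0, by simp⟩
      mul_mem' := by
        rintro a b ⟨e, he⟩ ⟨e', he'⟩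
        refine ⟨e + e', ?_⟩
        rw [mul_pow, he, he', ← map_mul, ← Finset.prod_mul_distrib]
        simp only [Pi.add_apply, pow_add] }
  have hroot : rootSet E n U ⊆ (S : Set E) := by
    rintro y ⟨u, hu, hy⟩
    refine ⟨Pi.single u 1, ?_⟩
    rw [hy, Finset.prod_eq_single u]
    · rw [Pi.single_eq_same, pow_one]
    · intro v _ hv
      rw [Pi.single_eq_of_ne hv, pow_zero]
    · intro h
      exact absurd hu h
  have hspan : Submodule.span F (S : Set E) = ⊤ := by
    have h1 : Algebra.adjoin F (S : Set E) = ⊤ := by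
      have h2 : (IntermediateField.adjoin F (rootSet E n U)).toSubalgebra =
          Algebra.adjoin F (rootSet E n U) :=
        IntermediateField.adjoin_toSubalgebra_of_isAlgebraic
          (fun x _ => Algebra.IsAlgebraic.isAlgebraic x)
      rw [hgen, IntermediateField.top_toSubalgebra] at h2
      exact top_le_iff.mp (h2 ▸ Algebra.adjoin_mono hroot)
    have h3 := Algebra.adjoin_eq_span F (S : Set E)
    rw [Submonoid.closure_eq, h1] at h3
    rw [← h3, Algebra.top_toSubmodule]
  obtain ⟨b, hbS, hbspan, hbind⟩ := exists_linearIndependent F (S : Set E)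
  let B : Module.Basis b F E :=
    Module.Basis.mk hbind (by rw [Subtype.range_coe, hbspan, hspan])
  have : Fintype b := FiniteDimensional.fintypeBasisIndex B
  have hcard : Fintype.card b = Module.finrank F E := (Module.finrank_eq_card_basis B).symm
  let eq : Fin (Module.finrank F E) ≃ b := (Fintype.equivFinOfCardEq hcard).symm
  have hmem : ∀ j, ∃ e : F → ℕ, ((eq j : b) : E) ^ n = algebraMap F E (∏ u ∈ U, u ^ e u) :=
    fun j => hbS (eq j).2
  choose e he using hmem
  exact ⟨fun j => eq j, e, hbind.comp _ eq.injective, he⟩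

variable {A P F E : Type*} [CommRing A] [IsDomain A] [IsDiscreteValuationRing A] [Field P]
  [Field F] [Field E] [Algebra A P] [Algebra P F] [Algebra A F] [IsScalarTower A P F]
  [Algebra F E] [Algebra P E] [Algebra A E] [IsScalarTower P F E] [IsScalarTower A P E]
  [IsScalarTower A F E] [FiniteDimensional P F] [FiniteDimensional F E] [FiniteDimensional P E]
  [Algebra.IsSeparable P F] [Algebra.IsSeparable P E] {x : P}

/-- K8a. -/
theorem mul_mem_Sec {n : ℕ} (hn : 0 < n) {u f : F} {y : E} {k : ℕ}
    (hy : y ^ n = algebraMap F E u) (hf : f ∈ KSec A F x n u k) :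
    algebraMap F E f * y ∈ Sec A E x k := by
  obtain ⟨h1, h2⟩ := hf
  refine ⟨?_, ?_⟩
  · refine IsIntegral.of_pow hn ?_
    have e : (algebraMap F E f * y) ^ n = algebraMap F E (f ^ n * u) := by
      rw [mul_pow, hy, map_mul, map_pow]
    rw [e]
    exact h1.algebraMap
  · refine IsIntegral.of_pow hn ?_
    have e : ((algebraMap P E x)⁻¹ ^ k * (algebraMap F E f * y)) ^ n =
        algebraMap F E (((algebraMap P F x)⁻¹ ^ k * f) ^ n * u) := by
      rw [IsScalarTower.algebraMap_apply P F E, ← mul_assoc, mul_pow _ y, hy, map_mul, map_pow,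
        map_mul, map_pow, map_inv₀]
    rw [e]
    exact h2.algebraMap

/-- K8.  The family `b j i * y j` is `A`-linearly independent and lies in `Sec A E x k`
(`finite_Sec`, `LinearIndependent.fintype_card_le_finrank`). -/
theorem finrank_mul_le_of_riem (hx : IsCoord A x) {n : ℕ} (hn : 0 < n)
    (y : Fin (Module.finrank F E) → E) (u : Fin (Module.finrank F E) → F)
    (hy : ∀ j, y j ^ n = algebraMap F E (u j)) (hind : LinearIndependent F y)
    (hR : ∀ j, Riem A F x n (u j)) :
    ∀ k₁ : ℕ, ∃ k, k₁ ≤ k ∧ Module.finrank F E * Module.finrank A (Sec A F x k) ≤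
      Module.finrank A (Sec A E x k) := by
  classical
  intro k₁
  choose k₀ hk₀ using hR
  have hkj : ∀ j, k₀ j ≤ max k₁ (Finset.univ.sup k₀) := fun j =>
    le_trans (Finset.le_sup (Finset.mem_univ j)) (le_max_right _ _)
  refine ⟨max k₁ (Finset.univ.sup k₀), le_max_left _ _, ?_⟩
  generalize max k₁ (Finset.univ.sup k₀) = k at hkj
  choose b hb1 hb2 using fun j => hk₀ j k (hkj j)
  let v : Fin (Module.finrank F E) × Fin (Module.finrank A (Sec A F x k)) → Sec A E x k :=
    fun p => ⟨algebraMap F E (b p.1 p.2) * y p.1, mul_mem_Sec hn (hy p.1) (hb2 p.1 p.2)⟩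
  have hv : LinearIndependent A v := by
    rw [Fintype.linearIndependent_iff]
    intro g hg
    have h1 : ∑ p, g p • (algebraMap F E (b p.1 p.2) * y p.1) = 0 := by
      have := congrArg (Submodule.subtype (Sec A E x k)) hg
      rw [map_sum, map_zero] at this
      simpa [v] using this
    have h2 : ∑ j, (∑ i, g (j, i) • b j i) • y j = 0 := by
      rw [← h1, Fintype.sum_prod_type]
      refine Finset.sum_congr rfl fun j _ => ?_
      rw [Finset.sum_smul]
      refine Finset.sum_congr rfl fun i _ => ?_
      rw [smul_assoc, Algebra.smul_def (b j i) (y j)]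
    have h3 := Fintype.linearIndependent_iff.1 hind _ h2
    rintro ⟨j, i⟩
    exact Fintype.linearIndependent_iff.1 (hb1 j) _ (h3 j) i
  have hfin := finite_Sec (E := E) hx k
  have h := hv.fintype_card_le_finrank
  simpa [Fintype.card_prod] using h

end Fermat.Agent.Nodal

end
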