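/-
NODAL, layer KUM (architect helper155): K9: the main theorems of the nodal core without the cover.

`tor_kummer` : general form (the triviality of the decomposition groups is a hypothesis on the
               splitting field of `∏ (X ^ n - u)`);
`tor_tame`   : `n` invertible in `A`, `u ≡ 1` at all vertical valuations;
`tor_deep`   : `n = p`, `u ≡ 1 mod (ζ - 1) ^ p m_V` at all vertical valuations.
-/
import Fermat.Agent.Nodal.Tor
import Fermat.Agent.Nodal.RankCount
import Fermat.Agent.Nodal.SplitOfFree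
import Fermat.Agent.Nodal.Kum.Ext
import Fermat.Agent.Nodal.Kum.Free
import Fermat.Agent.Nodal.Kum.Rank

set_option autoImplicit false

noncomputable section

namespace Fermat.Agent.Nodal

open Fermat.Agent.KLB Polynomial

variable {A P F L : Type*} [CommRing A] [IsDomain A] [IsDiscreteValuationRing A] [Field P]
  [Field F] [Field L] [Algebra A P] [Algebra P F] [Algebra A F] [IsScalarTower A P F]
  [FiniteDimensional P F] [CharZero P]
  {x : P} {π : A} {Og : Subring P} {vert : Finset (ValuationSubring F)}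

/-- The cover: the splitting field of `∏ (X ^ n - u)`. -/
abbrev KE (n : ℕ) (U : Finset F) : Type _ := (kumPoly n U).SplittingField

theorem adjoin_rootSet_splittingField_monic (n : ℕ) (hn : 0 < n) (U : Finset F) :
    (kumPoly n U).Monic :=
  monic_prod_of_monic _ _ fun u _ => monic_X_pow_sub_C u hn.ne'

/-- K9a: the roots generate the splitting field. -/
theorem adjoin_rootSet_splittingField (n : ℕ) (hn : 0 < n) (U : Finset F) :
    IntermediateField.adjoin F (rootSet (KE n U) n U) = ⊤ := by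
  have h1 : (kumPoly n U).rootSet (KE n U) ⊆ rootSet (KE n U) n U := by
    intro y hy
    rw [Polynomial.mem_rootSet] at hy
    have h2 : aeval y (∏ u ∈ U, (X ^ n - C u : F[X])) = 0 := hy.2
    rw [map_prod, Finset.prod_eq_zero_iff] at h2
    obtain ⟨u, hu, h3⟩ := h2
    refine ⟨u, hu, ?_⟩
    rw [map_sub, map_pow, aeval_X, aeval_C] at h3
    exact sub_eq_zero.1 h3
  have h2 : Algebra.adjoin F ((kumPoly n U).rootSet (KE n U)) = ⊤ :=
    SplittingField.adjoin_rootSet (kumPoly n U)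
  have h3 : (⊤ : Subalgebra F (KE n U)) ≤
      (IntermediateField.adjoin F (rootSet (KE n U) n U)).toSubalgebra := by
    rw [← h2]
    exact (Algebra.adjoin_mono h1).trans (IntermediateField.algebra_adjoin_le_adjoin F _)
  rw [eq_top_iff]
  intro y _
  exact h3 (Algebra.mem_top (x := y))

/-- K9b: every `u ∈ U` has an `n`-th root in the splitting field. -/
theorem exists_root_splittingField (n : ℕ) (hn : 0 < n) (U : Finset F) {u : F} (hu : u ∈ U) :
    ∃ y : KE n U, y ^ n = algebraMap F (KE n U) u := by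
  have hm := adjoin_rootSet_splittingField_monic n hn U
  have h1 : ((kumPoly n U).map (algebraMap F (KE n U))).Splits :=
    SplittingField.splits (kumPoly n U)
  have h2 : (X ^ n - C u : F[X]) ∣ kumPoly n U :=
    Finset.dvd_prod_of_mem (fun u => (X ^ n - C u : F[X])) hu
  have h3 : ((X ^ n - C u : F[X]).map (algebraMap F (KE n U))).Splits :=
    h1.of_dvd (hm.map _).ne_zero (Polynomial.map_dvd _ h2)
  have h4 : ((X ^ n - C u : F[X]).map (algebraMap F (KE n U))).degree ≠ 0 := by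
    rw [Polynomial.degree_map, degree_X_pow_sub_C hn]
    exact_mod_cast hn.ne'
  obtain ⟨y, hy⟩ := h3.exists_eval_eq_zero h4
  refine ⟨y, ?_⟩
  rw [Polynomial.map_sub, Polynomial.map_pow, map_X, map_C, eval_sub, eval_pow, eval_X,
    eval_C] at hy
  exact sub_eq_zero.1 hy

/-- K9c: the splitting field embeds into every field in which the `u ∈ U` are `n`-th powers and which
contains a primitive `n`-th root of unity. -/
theorem exists_embedding_splittingField (n : ℕ) (hn : 0 < n) (U : Finset F) (ι : F →+* L)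
    (ζ : L) (hζ : IsPrimitiveRoot ζ n) (hUL : ∀ u ∈ U, ∃ z : L, z ^ n = ι u) :
    ∃ ι' : KE n U →+* L, ∀ a : F, ι' (algebraMap F (KE n U) a) = ι a := by
  let _ : Algebra F L := ι.toAlgebra
  have hs : ((kumPoly n U).map (algebraMap F L)).Splits := by
    rw [kumPoly, Polynomial.map_prod]
    refine Splits.prod fun u hu => ?_
    obtain ⟨z, hz⟩ := hUL u hu
    rw [Polynomial.map_sub, Polynomial.map_pow, map_X, map_C]
    exact X_pow_sub_C_splits_of_isPrimitiveRoot hζ hz
  exact ⟨(SplittingField.lift (kumPoly n U) hs).toRingHom, fun a =>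
    (SplittingField.lift (kumPoly n U) hs).commutes a⟩

omit [CharZero P] in
/-- `tor_kummer` for an arbitrary splitting field `E` of `kumPoly n U` (all instances as
variables). -/
theorem tor_kummer_aux {E : Type*} [Field E] [Algebra F E] [Algebra P E] [Algebra A E]
    [IsScalarTower P F E] [IsScalarTower A P E] [IsScalarTower A F E]
    [FiniteDimensional F E] [FiniteDimensional P E] [Algebra.IsSeparable P F]
    [Algebra.IsSeparable P E] [IsGalois F E]
    [Finite (A ⧸ Ideal.span {π})] (hB : Base A F x π Og vert)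
    (hne : vert.Nonempty) (ι : F →+* L)
    (hL : ∀ z : L, (ι.comp (algebraMap A F)).IsIntegralElem z →
      z ∈ (ι.comp (algebraMap A F)).range)
    (n : ℕ) (hn : 0 < n) (ζ : A) (hζ : IsPrimitiveRoot ζ n) (g₀ : F ≃+* F)
    (hA : ∀ a : A, ∃ a' : A, g₀ (algebraMap A F a) = algebraMap A F a')
    (hA' : ∀ a : A, ∃ a' : A, g₀ (algebraMap A F a') = algebraMap A F a)
    (hx : g₀ (algebraMap P F x) = algebraMap P F x)
    (hV : ∀ V ∈ vert, V.comap (g₀ : F →+* F) = V)
    (hcr₁ : FixesCrossings A F x vert g₀) (hcr₂ : FixesCrossings A F x⁻¹ vert g₀)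
    (ε : ℕ) (hε : g₀ (algebraMap A F ζ) = algebraMap A F ζ ^ ε)
    (U : Finset F) (hU0 : ∀ u ∈ U, u ≠ 0) (hUg : ∀ u ∈ U, g₀ u ∈ U)
    [IsSplittingField F E (kumPoly n U)]
    (hgen : IntermediateField.adjoin F (rootSet E n U) = ⊤)
    (hroot : ∀ u ∈ U, ∃ y : E, y ^ n = algebraMap F E u)
    (ι' : E →+* L) (hι' : ∀ a : F, ι' (algebraMap F E a) = ι a)
    (hfree : ∀ W₀ : ValuationSubring E, W₀.comap (algebraMap F E) ∈ vert →
      ∀ γ : E ≃ₐ[F] E, W₀.comap (γ : E →+* E) = W₀ → γ = 1)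
    (hUR : ∀ e : F → ℕ, Riem A F x n (∏ u ∈ U, u ^ e u)) :
    ∀ u ∈ U, ∃ f : F, g₀ u = u ^ ε * f ^ n := by
  have hS : Split A E π vert := split_of_free hB fun V hV =>
    (exists_valuationSubring_comap_eq (E := E) V).imp fun W₀ h => ⟨h, hfree W₀ (h ▸ hV)⟩
  obtain ⟨y, e, hind, hy⟩ := exists_monomial_basis n U hgen
  have hrank := finrank_mul_le_of_riem (A := A) (x := x) hB.coord hn y
    (fun j => ∏ u ∈ U, u ^ e j u) hy hind fun j => hUR (e j)
  have hC : Count A F E x vert := count_of_finrank hB hS hrank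
  have hinjAP : Function.Injective (algebraMap A P) := rankFinite_algebraMap_injective hB.coord
  have hinjAF : Function.Injective (algebraMap A F) := by
    rw [IsScalarTower.algebraMap_eq A P F]
    exact (algebraMap P F).injective.comp hinjAP
  have hinjAE : Function.Injective (algebraMap A E) := by
    rw [IsScalarTower.algebraMap_eq A F E]
    exact (algebraMap F E).injective.comp hinjAF
  have hcomp : ι.comp (algebraMap A F) = ι'.comp (algebraMap A E) := by
    ext a
    rw [RingHom.comp_apply, RingHom.comp_apply, IsScalarTower.algebraMap_apply A F E, hι']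
  have hconst : ∀ y : E, IsIntegral A y → y ∈ (algebraMap A E).range := by
    intro y hy
    have h1 : (ι.comp (algebraMap A F)).IsIntegralElem (ι' y) := by
      obtain ⟨p, hp, hpy⟩ := hy
      refine ⟨p, hp, ?_⟩
      rw [hcomp, ← Polynomial.hom_eval₂, hpy, map_zero]
    obtain ⟨a, ha⟩ := hL _ h1
    refine ⟨a, ι'.injective ?_⟩
    rw [← ha, hcomp, RingHom.comp_apply]
  obtain ⟨g', hg'⟩ := exists_ringEquiv_extension (E := E) (kumPoly n U) g₀ (kumPoly_map n U g₀ hUg)
  obtain ⟨V₀, hV₀⟩ := hne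
  obtain ⟨W₀, hW₀⟩ := exists_valuationSubring_comap_eq (E := E) V₀
  obtain ⟨g, hg, hgW⟩ := exists_extension_fixing g₀ g' hg' V₀ (hV V₀ hV₀) W₀ hW₀
  have hgA : ∀ a : A, ∃ a' : A, g (algebraMap A E a) = algebraMap A E a' := by
    intro a
    obtain ⟨a', ha'⟩ := hA a
    exact ⟨a', by rw [IsScalarTower.algebraMap_apply A F E, hg, ha',
      ← IsScalarTower.algebraMap_apply A F E]⟩
  have hgA' : ∀ a : A, ∃ a' : A, g (algebraMap A E a') = algebraMap A E a := by
    intro a
    obtain ⟨a', ha'⟩ := hA' a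
    exact ⟨a', by rw [IsScalarTower.algebraMap_apply A F E, hg, ha',
      ← IsScalarTower.algebraMap_apply A F E]⟩
  have hgx : g (algebraMap P E x) = algebraMap P E x := by
    rw [IsScalarTower.algebraMap_apply P F E, hg, hx]
  have hgx' : g (algebraMap P E x⁻¹) = algebraMap P E x⁻¹ := by
    rw [map_inv₀, map_inv₀, hgx]
  have hint₁ := isIntegral_adjoin_map_iff (A := A) x g hgA hgA' hgx
  have hint₂ := isIntegral_adjoin_map_iff (A := A) x⁻¹ g hgA hgA' hgx'
  have hζE : IsPrimitiveRoot (algebraMap A E ζ) n := hζ.map_of_injective hinjAE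
  have hε' : ∀ ζ' : E, ζ' ^ n = 1 → g ζ' = ζ' ^ ε := by
    intro ζ' h
    have : NeZero n := ⟨hn.ne'⟩
    obtain ⟨i, -, rfl⟩ := hζE.eq_pow_of_pow_eq_one h
    rw [map_pow, IsScalarTower.algebraMap_apply A F E, hg, hε, map_pow, ← pow_mul, ← pow_mul,
      mul_comm]
  intro u hu
  obtain ⟨y, hy⟩ := hroot u hu
  exact tor_abs hB hS hC hconst g g₀ hg hint₁ hint₂ hV hcr₁ hcr₂ W₀ (hW₀ ▸ hV₀) hgW n ε hε' y u
    (hU0 u hu) hy

/-- **K9, general form.** -/
theorem tor_kummer [Finite (A ⧸ Ideal.span {π})] (hB : Base A F x π Og vert)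
    (hne : vert.Nonempty) (ι : F →+* L)
    (hL : ∀ z : L, (ι.comp (algebraMap A F)).IsIntegralElem z →
      z ∈ (ι.comp (algebraMap A F)).range)
    (n : ℕ) (hn : 0 < n) (ζ : A) (hζ : IsPrimitiveRoot ζ n) (g₀ : F ≃+* F)
    (hA : ∀ a : A, ∃ a' : A, g₀ (algebraMap A F a) = algebraMap A F a')
    (hA' : ∀ a : A, ∃ a' : A, g₀ (algebraMap A F a') = algebraMap A F a)
    (hx : g₀ (algebraMap P F x) = algebraMap P F x)
    (hV : ∀ V ∈ vert, V.comap (g₀ : F →+* F) = V)
    (hcr₁ : FixesCrossings A F x vert g₀) (hcr₂ : FixesCrossings A F x⁻¹ vert g₀)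
    (ε : ℕ) (hε : g₀ (algebraMap A F ζ) = algebraMap A F ζ ^ ε)
    (U : Finset F) (hU0 : ∀ u ∈ U, u ≠ 0) (hUg : ∀ u ∈ U, g₀ u ∈ U)
    (hUL : ∀ u ∈ U, ∃ z : L, z ^ n = ι u)
    (hfree : ∀ W₀ : ValuationSubring (KE n U), W₀.comap (algebraMap F (KE n U)) ∈ vert →
      ∀ γ : KE n U ≃ₐ[F] KE n U, W₀.comap (γ : KE n U →+* KE n U) = W₀ → γ = 1)
    (hUR : ∀ e : F → ℕ, Riem A F x n (∏ u ∈ U, u ^ e u)) :
    ∀ u ∈ U, ∃ f : F, g₀ u = u ^ ε * f ^ n := by
  have : IsScalarTower A P (KE n U) := IsScalarTower.of_algebraMap_eq fun a => by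
    rw [IsScalarTower.algebraMap_apply A F (KE n U), IsScalarTower.algebraMap_apply P F (KE n U),
      ← IsScalarTower.algebraMap_apply A P F]
  have : FiniteDimensional P (KE n U) := FiniteDimensional.trans P F (KE n U)
  have : CharZero F := charZero_of_injective_algebraMap (algebraMap P F).injective
  have : Normal F (KE n U) := Normal.of_isSplittingField (kumPoly n U)
  have : IsGalois F (KE n U) := ⟨⟩
  have hinjAF : Function.Injective (algebraMap A F) := by
    rw [IsScalarTower.algebraMap_eq A P F]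
    exact (algebraMap P F).injective.comp (rankFinite_algebraMap_injective hB.coord)
  obtain ⟨ι', hι'⟩ := exists_embedding_splittingField n hn U ι (ι (algebraMap A F ζ))
    ((hζ.map_of_injective hinjAF).map_of_injective ι.injective) hUL
  exact tor_kummer_aux (E := KE n U) hB hne ι hL n hn ζ hζ g₀ hA hA' hx hV hcr₁ hcr₂ ε hε U hU0 hUg
    (adjoin_rootSet_splittingField n hn U) (fun u hu => exists_root_splittingField n hn U hu)
    ι' hι' hfree hUR

omit [CharZero P] in
theorem tor_tame_algebraMap_mem (hB : Base A F x π Og vert) {V : ValuationSubring F}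
    (hV : V ∈ vert) (a : A) : algebraMap A F a ∈ V := by
  refine mem_of_isIntegral₁ hB.coord hB.irr hB.og ((hB.vert_iff V).mp hV) ?_
  rw [IsScalarTower.algebraMap_apply A (Algebra.adjoin A {x}) F]
  exact isIntegral_algebraMap

omit [CharZero P] [FiniteDimensional P F] in
theorem tor_tame_algebraMap_injective (hB : Base A F x π Og vert) :
    Function.Injective (algebraMap A F) := by
  have h1 : Function.Injective (algebraMap A P) := by
    rw [injective_iff_map_eq_zero]
    intro a ha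
    have h2 : aeval x (C a : A[X]) = 0 := by rw [aeval_C, ha]
    have h3 := (transcendental_iff.mp hB.coord.trans) (C a) h2
    exact C_eq_zero.mp h3
  rw [IsScalarTower.algebraMap_eq A P F]
  exact (algebraMap P F).injective.comp h1

theorem tor_tame_one_not_mem_nonunits {K : Type*} [Field K] (V : ValuationSubring K) :
    (1 : K) ∉ V.nonunits := by
  rw [ValuationSubring.mem_nonunits_iff, map_one]
  exact lt_irrefl _

/-- **K9, tame form.** -/
theorem tor_tame [Finite (A ⧸ Ideal.span {π})] (hB : Base A F x π Og vert)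
    (hne : vert.Nonempty) (ι : F →+* L)
    (hL : ∀ z : L, (ι.comp (algebraMap A F)).IsIntegralElem z →
      z ∈ (ι.comp (algebraMap A F)).range)
    (n : ℕ) (hn : IsUnit (n : A)) (ζ : A) (hζ : IsPrimitiveRoot ζ n) (g₀ : F ≃+* F)
    (hA : ∀ a : A, ∃ a' : A, g₀ (algebraMap A F a) = algebraMap A F a')
    (hA' : ∀ a : A, ∃ a' : A, g₀ (algebraMap A F a') = algebraMap A F a)
    (hx : g₀ (algebraMap P F x) = algebraMap P F x)
    (hV : ∀ V ∈ vert, V.comap (g₀ : F →+* F) = V)
    (hcr₁ : FixesCrossings A F x vert g₀) (hcr₂ : FixesCrossings A F x⁻¹ vert g₀)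
    (ε : ℕ) (hε : g₀ (algebraMap A F ζ) = algebraMap A F ζ ^ ε)
    (U : Finset F) (hUg : ∀ u ∈ U, g₀ u ∈ U)
    (hUL : ∀ u ∈ U, ∃ z : L, z ^ n = ι u)
    (hU1 : ∀ u ∈ U, ∀ V ∈ vert, u - 1 ∈ V.nonunits)
    (hUR : ∀ e : F → ℕ, Riem A F x n (∏ u ∈ U, u ^ e u)) :
    ∀ u ∈ U, ∃ f : F, g₀ u = u ^ ε * f ^ n := by
  have hn0 : 0 < n := by
    rcases Nat.eq_zero_or_pos n with h | h
    · subst h
      rw [Nat.cast_zero] at hn
      exact absurd hn not_isUnit_zero
    · exact h
  obtain ⟨V₀, hV₀⟩ := hne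
  refine tor_kummer hB ⟨V₀, hV₀⟩ ι hL n hn0 ζ hζ g₀ hA hA' hx hV hcr₁ hcr₂ ε hε U ?_ hUg hUL ?_ hUR
  · intro u hu h0
    have h1 := hU1 u hu V₀ hV₀
    rw [h0, zero_sub] at h1
    have h2 := neg_mem_nonunits V₀ h1
    rw [neg_neg] at h2
    exact tor_tame_one_not_mem_nonunits V₀ h2
  · intro W₀ hW₀ γ hγ
    refine free_of_tame (A := A) ?_ W₀ ?_ n hn ζ hζ U ?_
      (adjoin_rootSet_splittingField n hn0 U) γ hγ
    · rw [IsScalarTower.algebraMap_eq A F (KE n U)]
      exact (algebraMap F (KE n U)).injective.comp (tor_tame_algebraMap_injective hB)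
    · intro a
      rw [IsScalarTower.algebraMap_apply A F (KE n U)]
      exact tor_tame_algebraMap_mem hB hW₀ a
    · intro u hu
      have h1 := hU1 u hu _ hW₀
      rw [mem_nonunits_comap, map_sub, map_one] at h1
      exact h1

/-- **K9, wild form** (`n = p`). -/
theorem tor_deep [Finite (A ⧸ Ideal.span {π})] (hB : Base A F x π Og vert)
    (hne : vert.Nonempty) (ι : F →+* L)
    (hL : ∀ z : L, (ι.comp (algebraMap A F)).IsIntegralElem z →
      z ∈ (ι.comp (algebraMap A F)).range)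
    (p : ℕ) (hp : p.Prime) (ζ : A) (hζ : IsPrimitiveRoot ζ p) (g₀ : F ≃+* F)
    (hA : ∀ a : A, ∃ a' : A, g₀ (algebraMap A F a) = algebraMap A F a')
    (hA' : ∀ a : A, ∃ a' : A, g₀ (algebraMap A F a') = algebraMap A F a)
    (hx : g₀ (algebraMap P F x) = algebraMap P F x)
    (hV : ∀ V ∈ vert, V.comap (g₀ : F →+* F) = V)
    (hcr₁ : FixesCrossings A F x vert g₀) (hcr₂ : FixesCrossings A F x⁻¹ vert g₀)
    (ε : ℕ) (hε : g₀ (algebraMap A F ζ) = algebraMap A F ζ ^ ε)
    (U : Finset F) (hUg : ∀ u ∈ U, g₀ u ∈ U)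
    (hUL : ∀ u ∈ U, ∃ z : L, z ^ p = ι u)
    (hU1 : ∀ u ∈ U, ∀ V ∈ vert, ∃ z ∈ V.nonunits, u - 1 = algebraMap A F (ζ - 1) ^ p * z)
    (hUR : ∀ e : F → ℕ, Riem A F x p (∏ u ∈ U, u ^ e u)) :
    ∀ u ∈ U, ∃ f : F, g₀ u = u ^ ε * f ^ p := by
  obtain ⟨V₀, hV₀⟩ := hne
  refine tor_kummer hB ⟨V₀, hV₀⟩ ι hL p hp.pos ζ hζ g₀ hA hA' hx hV hcr₁ hcr₂ ε hε U ?_ hUg hUL ?_
    hUR
  · intro u hu h0
    obtain ⟨z, hz, h1⟩ := hU1 u hu V₀ hV₀
    have h3 : u - 1 ∈ V₀.nonunits := by
      rw [h1]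
      exact mul_mem_nonunits V₀ (pow_mem (tor_tame_algebraMap_mem hB hV₀ _) _) hz
    rw [h0, zero_sub] at h3
    have h2 := neg_mem_nonunits V₀ h3
    rw [neg_neg] at h2
    exact tor_tame_one_not_mem_nonunits V₀ h2
  · intro W₀ hW₀ γ hγ
    refine free_of_deep (A := A) ?_ W₀ ?_ p hp ζ hζ U ?_
      (adjoin_rootSet_splittingField p hp.pos U) γ hγ
    · rw [IsScalarTower.algebraMap_eq A F (KE p U)]
      exact (algebraMap F (KE p U)).injective.comp (tor_tame_algebraMap_injective hB)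
    · intro a
      rw [IsScalarTower.algebraMap_apply A F (KE p U)]
      exact tor_tame_algebraMap_mem hB hW₀ a
    · intro u hu
      obtain ⟨z, hz, h1⟩ := hU1 u hu _ hW₀
      refine ⟨algebraMap F (KE p U) z, (mem_nonunits_comap _ _ _).mp hz, ?_⟩
      have h2 := congrArg (algebraMap F (KE p U)) h1
      rw [map_sub, map_one, map_mul, map_pow, ← IsScalarTower.algebraMap_apply A F (KE p U)] at h2
      exact h2

end Fermat.Agent.Nodal

end
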